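import Fermat.Agent.DedekindOrdinateGaps.Rates

/-!
# The ordinates in an interval of length at least `C / log (G/n)`, on the Riemann hypothesis

With `G = g + n log (|t| + 3) + 3` the interval `[t - w, t + w]`, `C / log (G/n) ≤ w ≤ 1`, holds
between `w G / 24` and `4 w G` ordinates.
-/

set_option autoImplicit false
set_option linter.style.haveILetI false

noncomputable section

universe u

open NumberField InfinitePlace Module Filter Topology Set MeasureTheory
open FA.TsfasmanVladut FA.EulerKroneckerFamilies FA.GRHBasicInequality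
open FA.FamilyZeroDensity FA.DedekindMultiplicity FA.DedekindHadamard
open scoped Real Classical

namespace FA.DedekindOrdinateGaps

theorem log_abs_add_three_near {t x : ℝ} (h : |x - t| ≤ 2) :
    Real.log (|t| + 3) - 1 ≤ Real.log (|x| + 3) ∧ Real.log (|x| + 3) ≤ Real.log (|t| + 3) + 1 := by
  have hl2 : Real.log 2 ≤ 1 := (Real.log_le_iff_le_exp two_pos).2 (by
    linarith [Real.add_one_le_exp 1])
  have h1 := (abs_sub_abs_le_abs_sub x t).trans h
  have h2 := (abs_sub_abs_le_abs_sub t x).trans ((abs_sub_comm t x).trans_le h)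
  have hx := abs_nonneg x
  have ht := abs_nonneg t
  have u1 := Real.log_le_log (x := |t| + 3) (y := 2 * (|x| + 3)) (by linarith) (by linarith)
  have u2 := Real.log_le_log (x := |x| + 3) (y := 2 * (|t| + 3)) (by linarith) (by linarith)
  rw [Real.log_mul two_ne_zero (by linarith)] at u1 u2
  constructor <;> linarith

variable (K : Type u) [Field K] [NumberField K]

/-- **The zeros near `t` and all others.** -/
theorem fieldLog_le_near (hRH : RHFor K) {a v t x : ℝ} (ha : 0 < a) (hv : 0 < v)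
    (hx : x ∈ Set.Icc (t - v) (t + v)) {T : Finset ℂ}
    (hT : ∀ ρ, xiMult K ρ ≠ 0 → t - 2 * v ≤ ρ.im → ρ.im ≤ t + 2 * v → ρ ∈ T) :
    fieldLog K (pt (1 / 2 + a) x) ≤ (∑ ρ ∈ T, (xiMult K ρ : ℝ) * cauchyKernel a ρ.im x) +
      2 * a / v * fieldLog K (pt (1 / 2 + v) x) := by
  have hs1 : HasSum (fun ρ : ℂ => if ρ ∈ T then (xiMult K ρ : ℝ) * cauchyKernel a ρ.im x else 0)
      (∑ ρ ∈ T, (xiMult K ρ : ℝ) * cauchyKernel a ρ.im x) := by
    convert hasSum_sum_of_ne_finset_zero (L := SummationFilter.unconditional ℂ) (s := T)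
      (f := fun ρ : ℂ => if ρ ∈ T then (xiMult K ρ : ℝ) * cauchyKernel a ρ.im x else 0)
      (fun ρ hρ => if_neg hρ) using 1
    exact Finset.sum_congr rfl fun ρ hρ => (if_pos hρ).symm
  refine hasSum_le (fun ρ => ?_) (hasSum_reTerm K (xiFun_pt_ne K hRH (by linarith) x))
    (hs1.add ((hasSum_reTerm K (xiFun_pt_ne K hRH (by linarith) x)).mul_left (2 * a / v)))
  rw [reTerm_eq_cauchy K hRH, reTerm_eq_cauchy K hRH]
  have hnn : 0 ≤ 2 * a / v * ((xiMult K ρ : ℝ) * cauchyKernel v ρ.im x) := by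
    rw [cauchyKernel]
    positivity
  split_ifs with hρ
  · linarith
  rw [zero_add, mul_left_comm]
  rcases eq_or_ne (xiMult K ρ) 0 with hm | hm
  · simp [hm]
  refine mul_le_mul_of_nonneg_left ?_ (Nat.cast_nonneg _)
  have hd : v ^ 2 ≤ (x - ρ.im) ^ 2 := by
    by_contra hlt
    obtain ⟨h1, h2⟩ := abs_lt.1 (abs_lt_of_sq_lt_sq (not_le.1 hlt) hv.le)
    exact hρ (hT ρ hm (by linarith [hx.1]) (by linarith [hx.2]))
  rw [cauchyKernel, cauchyKernel, show 2 * a / v * (v / (v ^ 2 + (x - ρ.im) ^ 2)) =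
    2 * a / (v ^ 2 + (x - ρ.im) ^ 2) by field_simp, div_le_div_iff₀ (by positivity) (by positivity)]
  nlinarith [mul_le_mul_of_nonneg_left hd ha.le, mul_nonneg ha.le (sq_nonneg a)]

/-- **Two-sided counts.** -/
theorem count_two_sided (hRH : RHFor K) {t w G : ℝ}
    (hG : G = logGenus K + finrank ℚ K * Real.log (|t| + 3) + 3)
    (hQ : 10 ^ 7 ≤ G / finrank ℚ K) (hw : 10 ^ 7 / Real.log (G / finrank ℚ K) ≤ w) (hw1 : w ≤ 1) :
    w * G / 24 ≤ countIcc K (t - w) (t + w) ∧ countIcc K (t - w) (t + w) ≤ 4 * w * G := by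
  obtain ⟨n, hn⟩ : ∃ n : ℝ, n = (finrank ℚ K : ℝ) := ⟨_, rfl⟩
  obtain ⟨Q, hQd⟩ : ∃ Q, Q = G / n := ⟨_, rfl⟩
  obtain ⟨l, hl⟩ : ∃ l, l = Real.log Q := ⟨_, rfl⟩
  obtain ⟨s, hs⟩ : ∃ s, s = √Q := ⟨_, rfl⟩
  obtain ⟨L, hL⟩ : ∃ L, L = ⌊Q⌋₊ := ⟨_, rfl⟩
  rw [← hn] at hG hQ hw
  rw [← hQd] at hQ hw
  rw [← hl] at hw
  have hn1 : 1 ≤ n := hn ▸ Nat.one_le_cast.2 finrank_pos
  have hg := logGenus_nonneg K
  have hGQ : G = Q * n := by rw [hQd, div_mul_cancel₀ _ (by linarith)]
  have hl0 : 0 < l := hl ▸ Real.log_pos (by linarith)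
  have hlC : 10 ^ 7 ≤ l := by
    have := hw.trans hw1
    rwa [div_le_one hl0] at this
  have hH : l ≤ (harmonic L : ℝ) := by
    refine le_trans ?_ (log_add_one_le_harmonic L)
    push_cast
    rw [hl, hL]
    exact Real.log_le_log (by linarith) (Nat.lt_floor_add_one Q).le
  have hsL : √(L : ℝ) ≤ s := hs ▸ Real.sqrt_le_sqrt (hL ▸ Nat.floor_le (by linarith))
  have hs2 : s * s = Q := by rw [hs, Real.mul_self_sqrt (by linarith)]
  have hs0 : 3000 ≤ s := by
    rw [hs]
    exact Real.le_sqrt_of_sq_le (by linarith)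
  have hls : l ≤ 2 * s := by
    rw [hl, show Real.log Q = 2 * Real.log s by rw [hs, Real.log_sqrt (by linarith)]; ring]
    linarith [Real.log_le_sub_one_of_pos (show 0 < s by linarith)]
  have hsG : 3000 * s ≤ G := by
    rw [hGQ, ← hs2]
    nlinarith [mul_le_mul_of_nonneg_right hs0 (show 0 ≤ s by linarith),
      mul_nonneg (mul_nonneg (show 0 ≤ s by linarith) (show 0 ≤ s by linarith))
        (show 0 ≤ n - 1 by linarith)]
  have hnG : 10 ^ 7 * n ≤ G := by rw [hGQ]; exact mul_le_mul_of_nonneg_right hQ (by linarith)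
  have hw0 : 0 < w := lt_of_lt_of_le (div_pos (by norm_num) hl0) hw
  have hwl : 10 ^ 7 ≤ w * l := by rwa [div_le_iff₀ hl0] at hw
  have hsn : 10 ^ 7 * (s * n) ≤ 2 * (w * G) := by
    have h1 := mul_le_mul_of_nonneg_right hwl (show 0 ≤ s * n by positivity)
    have h2 := mul_le_mul_of_nonneg_left hls (show 0 ≤ w * (s * n) by positivity)
    rw [hGQ, ← hs2]
    linarith
  obtain ⟨a, ha⟩ : ∃ a, a = 16 / l := ⟨_, rfl⟩
  have ha0 : 0 < a := ha ▸ by positivity
  have ha1 : a ≤ 1 / 4 := by rw [ha, div_le_iff₀ hl0]; linarith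
  have haH : 16 ≤ a * (harmonic L : ℝ) := by
    rw [ha, div_mul_eq_mul_div, le_div_iff₀ hl0]
    linarith
  have haw : 10 ^ 7 * a ≤ 16 * w := by
    rw [ha, mul_div_assoc', div_le_iff₀ hl0]
    linarith
  have hv0 : 0 < w / 4 := by linarith
  have hvH : 4 ≤ w / 4 * (harmonic L : ℝ) := by
    linarith [mul_le_mul_of_nonneg_left hH hw0.le]
  obtain ⟨f, hfd⟩ : ∃ f : ℝ → ℝ, f = fun x => fieldLog K (pt (1 / 2 + a) x) := ⟨_, rfl⟩
  obtain ⟨R, hRd⟩ : ∃ R : ℝ → ℝ, R = fun x => primeAvg K L (1 / 2 + a) x := ⟨_, rfl⟩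
  have hfc : Continuous f := hfd ▸ continuous_fieldLog K hRH (by linarith)
  have hRc : Continuous R := hRd ▸ continuous_primeAvg K L (by linarith)
  have hRi : ∀ A B : ℝ, |∫ x in A..B, R x| ≤ 10 * s * n := fun A B => by
    rw [hRd, hn]
    exact (abs_integral_primeAvg_le K (by linarith) (by linarith) A B).trans
      (mul_le_mul_of_nonneg_right (mul_le_mul_of_nonneg_left hsL (by norm_num)) (Nat.cast_nonneg _))
  have happ : ∀ x, |x - t| ≤ 2 →
      G / 2 - 16 * n - 16 * s + R x ≤ 9 / 8 * f x ∧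
        7 / 8 * f x ≤ G + 16 * n + 16 * s + R x := fun x hx => by
    obtain ⟨h1, h2⟩ := abs_le.1 (abs_fieldLog_sub_main_le K hRH ha0 ha1 haH x)
    rw [mainRate, ← hn] at h1 h2
    obtain ⟨u1, u2⟩ := log_abs_add_three_near hx
    have m1 := mul_le_mul_of_nonneg_left u1 (show 0 ≤ n / 2 by linarith)
    have m2 := mul_le_mul_of_nonneg_left u2 (show 0 ≤ n / 2 by linarith)
    have hlt : 0 ≤ n * Real.log (|t| + 3) :=
      mul_nonneg (by linarith) (Real.log_nonneg (by linarith [abs_nonneg t]))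
    rw [hfd, hRd]
    constructor <;> linarith
  refine ⟨?_, ?_⟩
  · obtain ⟨T, hT, -, hc⟩ := exists_zero_set K (t - w / 2) (t + w / 2)
    have hcc : countIcc K (t - w / 2) (t + w / 2) ≤ countIcc K (t - w) (t + w) := by
      obtain ⟨T', hT', -, hc'⟩ := exists_zero_set K (t - w) (t + w)
      obtain ⟨T₀, -, hT₀, hc₀⟩ := exists_zero_set K (t - w / 2) (t + w / 2)
      rw [hc₀, hc', ← Finset.sum_filter_ne_zero]
      refine Finset.sum_le_sum_of_subset_of_nonneg (fun ρ hρ => ?_) fun ρ _ _ => Nat.cast_nonneg _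
      rw [Finset.mem_filter] at hρ
      obtain ⟨h1, h2⟩ := hT₀ ρ hρ.1
      exact hT' ρ (fun h => hρ.2 (by rw [h, Nat.cast_zero])) (by linarith) (by linarith)
    refine le_trans ?_ hcc
    rw [hc]
    have hfar : ∀ x ∈ Set.Icc (t - w / 4) (t + w / 4),
        f x ≤ (∑ ρ ∈ T, (xiMult K ρ : ℝ) * cauchyKernel a ρ.im x) + G / 100 := fun x hx => by
      rw [hfd]
      refine (fieldLog_le_near K hRH ha0 hv0 hx fun ρ h1 h2 h3 =>
        hT ρ h1 (by linarith) (by linarith)).trans (add_le_add_right ?_ _)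
      have hf := fieldLog_le_general K hRH hv0 (by linarith) hvH x
      obtain ⟨-, u2⟩ := log_abs_add_three_near (show |x - t| ≤ 2 from
        abs_le.2 ⟨by linarith [hx.1], by linarith [hx.2]⟩)
      have hc0 : 2 * a / (w / 4) ≤ 128 / 10 ^ 7 := by
        rw [div_le_div_iff₀ hv0 (by norm_num)]
        linarith
      rw [← hn] at hf
      have m2 := mul_le_mul_of_nonneg_left u2 (show 0 ≤ n by linarith)
      refine (mul_le_mul hc0 (hf.trans (show _ ≤ 128 * G by linarith))
        (fieldLog_nonneg K hRH (by linarith) x) (by norm_num)).trans ?_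
      linarith
    have hint : ∀ ρ ∈ T, IntervalIntegrable (fun x => (xiMult K ρ : ℝ) * cauchyKernel a ρ.im x)
        volume (t - w / 4) (t + w / 4) := fun ρ _ =>
      ((continuous_cauchyKernel ha0 ρ.im).const_mul _).intervalIntegrable _ _
    have h1 := intervalIntegral.integral_mono_on (μ := volume)
      (show t - w / 4 ≤ t + w / 4 by linarith)
      (((continuous_const (y := G / 2 - 16 * n - 16 * s)).add hRc).intervalIntegrable _ _)
      ((hfc.const_mul (9 / 8)).intervalIntegrable _ _)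
      fun x hx => (happ x (abs_le.2 ⟨by linarith [hx.1], by linarith [hx.2]⟩)).1
    have h2 := intervalIntegral.integral_mono_on (μ := volume)
      (show t - w / 4 ≤ t + w / 4 by linarith)
      (hfc.intervalIntegrable _ _)
      (((continuous_finsetSum T fun ρ _ => (continuous_cauchyKernel ha0 ρ.im).const_mul _).add
        (continuous_const (y := G / 100))).intervalIntegrable _ _) hfar
    simp only [Pi.add_apply] at h1 h2
    rw [intervalIntegral.integral_add intervalIntegrable_const (hRc.intervalIntegrable _ _),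
      intervalIntegral.integral_const, smul_eq_mul, intervalIntegral.integral_const_mul] at h1
    rw [intervalIntegral.integral_add
      ((continuous_finsetSum T fun ρ _ => (continuous_cauchyKernel ha0 ρ.im).const_mul _)
        |>.intervalIntegrable _ _) intervalIntegrable_const, intervalIntegral.integral_const,
      smul_eq_mul, intervalIntegral.integral_finsetSum hint] at h2
    have h3 : ∑ ρ ∈ T, ∫ x in (t - w / 4)..(t + w / 4),
        (xiMult K ρ : ℝ) * cauchyKernel a ρ.im x ≤ 4 * ∑ ρ ∈ T, (xiMult K ρ : ℝ) := by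
      rw [Finset.mul_sum]
      refine Finset.sum_le_sum fun ρ _ => ?_
      rw [intervalIntegral.integral_const_mul, integral_cauchyKernel ha0, mul_comm (4 : ℝ)]
      refine mul_le_mul_of_nonneg_left ?_ (Nat.cast_nonneg _)
      linarith [Real.arctan_lt_pi_div_two ((t + w / 4 - ρ.im) / a),
        Real.neg_pi_div_two_lt_arctan ((t - w / 4 - ρ.im) / a), Real.pi_lt_four]
    have hR := (abs_le.1 (hRi (t - w / 4) (t + w / 4))).1
    linarith [mul_le_mul_of_nonneg_left hnG hw0.le, mul_le_mul_of_nonneg_left hsG hw0.le,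
      mul_nonneg hw0.le (show 0 ≤ G by linarith)]
  · have h1 := arctan_mul_count_le K hRH (a := a) (η := a) ha0 ha0
      (show t - w ≤ t + w by linarith)
    rw [div_self ha0.ne', Real.arctan_one] at h1
    have haw1 : a ≤ w := by linarith
    have h2 := intervalIntegral.integral_mono_on (μ := volume)
      (show t - w - a ≤ t + w + a by linarith)
      ((hfc.const_mul (7 / 8)).intervalIntegrable _ _)
      (((continuous_const (y := G + 16 * n + 16 * s)).add hRc).intervalIntegrable _ _)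
      fun x hx => (happ x (abs_le.2 ⟨by linarith [hx.1], by linarith [hx.2]⟩)).2
    simp only [Pi.add_apply] at h1 h2
    rw [intervalIntegral.integral_add intervalIntegrable_const (hRc.intervalIntegrable _ _),
      intervalIntegral.integral_const, smul_eq_mul, intervalIntegral.integral_const_mul, hfd] at h2
    have hR := (abs_le.1 (hRi (t - w - a) (t + w + a))).2
    have hlen : (t + w + a - (t - w - a)) * (G + 16 * n + 16 * s) ≤
        4 * w * (G + 16 * n + 16 * s) :=
      mul_le_mul_of_nonneg_right (by linarith) (by linarith)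
    have hc0 := countIcc_nonneg K (t - w) (t + w)
    have h3 : 3 / 2 * countIcc K (t - w) (t + w) ≤ 2 * (π / 4) * countIcc K (t - w) (t + w) :=
      mul_le_mul_of_nonneg_right (by linarith [Real.pi_gt_three]) hc0
    linarith [mul_le_mul_of_nonneg_left hnG hw0.le, mul_le_mul_of_nonneg_left hsG hw0.le,
      mul_nonneg hw0.le (show 0 ≤ G by linarith)]

end FA.DedekindOrdinateGaps

end
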