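import Fermat.Agent.DedekindMultiplicity.Main
import Fermat.Agent.FamilyZeroDensity.Integral

/-!
# The primes in the averaged explicit formula, integrated along a vertical segment

Along `σ + i x` the `k`-th difference of the primes is a series of waves
`log q q^(-(m+1) σ) cos ((m + 1) x log q) ((1 - q^(-(m+1)))^k - 1)`, so its integral over any
interval is at most `10 n √k`.
-/

set_option autoImplicit false
set_option linter.style.haveILetI false

noncomputable section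

universe u

open NumberField InfinitePlace Module Filter Topology Set MeasureTheory
open FA.TsfasmanVladut FA.EulerKroneckerFamilies FA.GRHBasicInequality
open FA.FamilyZeroDensity FA.DedekindMultiplicity
open scoped Real Classical

namespace FA.DedekindOrdinateGaps

/-- `log q r^(m+1) cos ((m+1) x log q) (y^k - 1)`, `r = q^(-σ)`, `y = 1 - q^(-(m+1))`. -/
def primeWave (σ : ℝ) (k q m : ℕ) (x : ℝ) : ℝ :=
  Real.log q * (((q : ℝ) ^ (-σ)) ^ (m + 1) * Real.cos (((m : ℝ) + 1) * Real.log q * x)) *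
    ((1 - ((q : ℝ)⁻¹) ^ (m + 1)) ^ k - 1)

theorem continuous_primeWave (σ : ℝ) (k q m : ℕ) : Continuous (primeWave σ k q m) := by
  unfold primeWave
  fun_prop

theorem one_sub_pow_bounds (k q m : ℕ) (hq : 2 ≤ q) :
    0 ≤ 1 - (1 - ((q : ℝ)⁻¹) ^ (m + 1)) ^ k ∧ 1 - (1 - ((q : ℝ)⁻¹) ^ (m + 1)) ^ k ≤ 1 ∧
      1 - (1 - ((q : ℝ)⁻¹) ^ (m + 1)) ^ k ≤ k * ((q : ℝ)⁻¹) ^ (m + 1) := by
  have hx : (q : ℝ)⁻¹ ≤ 1 := inv_le_one_of_one_le₀ (Nat.one_le_cast.2 (by omega))
  obtain ⟨u, hu⟩ : ∃ u, u = ((q : ℝ)⁻¹) ^ (m + 1) := ⟨_, rfl⟩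
  rw [← hu]
  have hu0 : 0 ≤ u := hu ▸ by positivity
  have hu1 : u ≤ 1 := hu ▸ pow_le_one₀ (by positivity) hx
  have hb := one_add_mul_le_pow (show -2 ≤ -u by linarith) k
  rw [← sub_eq_add_neg] at hb
  exact ⟨sub_nonneg.2 (pow_le_one₀ (by linarith) (by linarith)),
    sub_le_self _ (pow_nonneg (by linarith) k), by linarith⟩

theorem hasSum_primeWave {σ : ℝ} (hσ : 0 < σ) (k : ℕ) {q : ℕ} (hq : 2 ≤ q) (x : ℝ) :
    HasSum (fun m => primeWave σ k q m x)
      (altSum k fun j : ℕ => if j = 0 then 0 else weightRe (pt σ x + j) q) := by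
  have hs : 0 < (pt σ x).re := by rwa [pt_re]
  rw [altSum_ite, Nat.cast_zero, add_zero, zero_sub, ← sub_eq_add_neg]
  refine ((hasSum_altSum_weightRe hs k hq).sub (weightRe_hasSum hs hq)).congr_fun fun m => ?_
  have hq0 : (0 : ℝ) < q := Nat.cast_pos.2 (by omega)
  have e : (((q : ℂ) ^ (-pt σ x)) ^ (m + 1)).re =
      ((q : ℝ) ^ (-σ)) ^ (m + 1) * Real.cos (((m : ℝ) + 1) * Real.log q * x) := by
    rw [Complex.cpow_def_of_ne_zero (Nat.cast_ne_zero.2 (by omega)), ← Complex.natCast_log,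
      ← Complex.exp_nat_mul, Complex.exp_re, Real.rpow_def_of_pos hq0, ← Real.exp_nat_mul]
    simp only [Complex.mul_re, Complex.mul_im, Complex.natCast_re, Complex.natCast_im,
      Complex.ofReal_re, Complex.ofReal_im, Complex.neg_re, Complex.neg_im, pt_re, pt_im]
    push_cast
    simp only [zero_mul, add_zero, sub_zero, mul_neg]
    rw [show ((m : ℝ) + 1) * (-(Real.log q * x) + -0) = -(((m : ℝ) + 1) * Real.log q * x) by ring,
      Real.cos_neg]
    ring_nf
  rw [Complex.re_mul_ofReal, e, primeWave]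
  ring

theorem abs_primeWave_le {σ : ℝ} (k : ℕ) {q : ℕ} (hq : 2 ≤ q) (m : ℕ) (x : ℝ) :
    |primeWave σ k q m x| ≤
      Real.log q * ((q : ℝ) ^ (-σ)) ^ (m + 1) * (1 - (1 - ((q : ℝ)⁻¹) ^ (m + 1)) ^ k) := by
  obtain ⟨h0, -, -⟩ := one_sub_pow_bounds k q m hq
  rw [primeWave, abs_mul, abs_mul, abs_mul, abs_of_nonneg (Real.log_natCast_nonneg q),
    abs_of_nonneg (pow_nonneg (Real.rpow_nonneg (Nat.cast_nonneg q) _) _), abs_sub_comm,
    abs_of_nonneg h0]
  refine mul_le_mul_of_nonneg_right (mul_le_mul_of_nonneg_left ?_ (Real.log_natCast_nonneg q)) h0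
  exact mul_le_of_le_one_right (pow_nonneg (Real.rpow_nonneg (Nat.cast_nonneg q) _) _)
    (Real.abs_cos_le_one _)

theorem abs_integral_cos_le {c : ℝ} (hc : 0 < c) (A B : ℝ) :
    |∫ x in A..B, Real.cos (c * x)| ≤ 2 / c := by
  rw [intervalIntegral.integral_comp_mul_left Real.cos hc.ne', integral_cos, smul_eq_mul, abs_mul,
    abs_of_pos (inv_pos.2 hc), div_eq_inv_mul]
  refine mul_le_mul_of_nonneg_left ((abs_sub _ _).trans ?_) (inv_pos.2 hc).le
  linarith [Real.abs_sin_le_one (c * B), Real.abs_sin_le_one (c * A)]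

/-- `min (1, k/q)/√q + √k/(q (q - 1))`, the bound for one norm. -/
def waveBound (k q : ℕ) : ℝ :=
  if q < 2 then 0
  else min 1 ((k : ℝ) / q) / √(q : ℝ) + √(k : ℝ) / ((q : ℝ) * ((q : ℝ) - 1))

theorem waveBound_nonneg (k q : ℕ) : 0 ≤ waveBound k q := by
  rw [waveBound]
  split_ifs with h
  · exact le_rfl
  · have : (2 : ℝ) ≤ q := by exact_mod_cast not_lt.1 h
    exact add_nonneg (div_nonneg (le_min zero_le_one (by positivity)) (Real.sqrt_nonneg _))
      (div_nonneg (Real.sqrt_nonneg _) (mul_nonneg (by linarith) (by linarith)))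

theorem abs_integral_primeWave_le {σ : ℝ} (hσ : 1 / 2 < σ) (k : ℕ) {q : ℕ} (hq : 2 ≤ q) (m : ℕ)
    (A B : ℝ) :
    |∫ x in A..B, primeWave σ k q m x| ≤
      2 * ((if m = 0 then min 1 ((k : ℝ) / q) / √(q : ℝ) - √(k : ℝ) / q else 0) +
        √(k : ℝ) * ((q : ℝ)⁻¹) ^ (m + 1)) := by
  have hq2 : (2 : ℝ) ≤ q := by exact_mod_cast hq
  have hl : 0 < Real.log q := Real.log_pos (by linarith)
  obtain ⟨h0, h1, hk⟩ := one_sub_pow_bounds k q m hq
  obtain ⟨b, hb⟩ : ∃ b, b = 1 - (1 - ((q : ℝ)⁻¹) ^ (m + 1)) ^ k := ⟨_, rfl⟩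
  rw [← hb] at h0 h1 hk
  have hm : (1 : ℝ) ≤ (m : ℝ) + 1 := by linarith [(Nat.cast_nonneg m : (0 : ℝ) ≤ m)]
  have hi := abs_integral_cos_le (show 0 < ((m : ℝ) + 1) * Real.log q by positivity) A B
  have e : ∫ x in A..B, primeWave σ k q m x = -(Real.log q * ((q : ℝ) ^ (-σ)) ^ (m + 1) * b *
      ∫ x in A..B, Real.cos (((m : ℝ) + 1) * Real.log q * x)) := by
    rw [← intervalIntegral.integral_const_mul, ← intervalIntegral.integral_neg]
    refine intervalIntegral.integral_congr fun x _ => ?_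
    simp only [primeWave, hb]
    ring
  rw [e, abs_neg, abs_mul, abs_of_nonneg (by positivity : 0 ≤ Real.log q *
    ((q : ℝ) ^ (-σ)) ^ (m + 1) * b)]
  refine (mul_le_mul_of_nonneg_left hi (by positivity)).trans ?_
  have hs : (q : ℝ) ^ (-σ) ≤ (√(q : ℝ))⁻¹ := by
    rw [Real.sqrt_eq_rpow, ← Real.rpow_neg (by linarith)]
    exact Real.rpow_le_rpow_of_exponent_le (by linarith) (by linarith)
  have hp : ((q : ℝ) ^ (-σ)) ^ (m + 1) ≤ ((√(q : ℝ))⁻¹) ^ (m + 1) :=
    pow_le_pow_left₀ (Real.rpow_nonneg (by linarith) _) hs _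
  have hr : Real.log q * ((q : ℝ) ^ (-σ)) ^ (m + 1) * b * (2 / (((m : ℝ) + 1) * Real.log q)) ≤
      2 * (((√(q : ℝ))⁻¹) ^ (m + 1) * b) := by
    rw [show Real.log q * ((q : ℝ) ^ (-σ)) ^ (m + 1) * b * (2 / (((m : ℝ) + 1) * Real.log q)) =
        2 * (((q : ℝ) ^ (-σ)) ^ (m + 1) * b) / ((m : ℝ) + 1) by field_simp]
    refine (div_le_self (by positivity) hm).trans ?_
    exact mul_le_mul_of_nonneg_left (mul_le_mul_of_nonneg_right hp h0) zero_le_two
  refine hr.trans (mul_le_mul_of_nonneg_left ?_ zero_le_two)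
  split_ifs with hm0
  · subst hm0
    simp only [zero_add, pow_one] at hk ⊢
    rw [sub_add, ← div_eq_mul_inv, sub_self, sub_zero, inv_mul_eq_div]
    refine div_le_div_of_nonneg_right (le_min h1 ?_) (Real.sqrt_nonneg _)
    exact hk.trans_eq (div_eq_mul_inv _ _).symm
  · rw [zero_add]
    obtain ⟨u, hu⟩ : ∃ u, u = ((√(q : ℝ))⁻¹) ^ (m + 1) := ⟨_, rfl⟩
    have hu2 : ((q : ℝ)⁻¹) ^ (m + 1) = u ^ 2 := by
      rw [hu, ← pow_mul, mul_comm, pow_mul, inv_pow (√(q : ℝ)) 2, Real.sq_sqrt (by linarith)]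
    have hu0 : 0 ≤ u := hu ▸ by positivity
    rw [hu2] at hk ⊢
    rw [← hu]
    have hs2 : b * b ≤ (√(k : ℝ) * u) * (√(k : ℝ) * u) := by
      rw [show (√(k : ℝ) * u) * (√(k : ℝ) * u) = √(k : ℝ) ^ 2 * u ^ 2 by ring,
        Real.sq_sqrt (Nat.cast_nonneg k)]
      exact (mul_le_of_le_one_left h0 h1).trans hk
    have hb2 : b ≤ √(k : ℝ) * u :=
      (mul_self_le_mul_self_iff h0 (by positivity)).2 hs2
    calc u * b ≤ u * (√(k : ℝ) * u) := mul_le_mul_of_nonneg_left hb2 hu0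
      _ = √(k : ℝ) * u ^ 2 := by ring

theorem inv_sqrt_step {x : ℝ} (hx : 0 ≤ x) :
    (√(x + 1))⁻¹ ≤ 2 * (√(x + 1) - √x) := by
  have h1 : √x ≤ √(x + 1) := Real.sqrt_le_sqrt (by linarith)
  have h2 : 0 < √(x + 1) := Real.sqrt_pos.2 (by linarith)
  rw [inv_le_iff_one_le_mul₀ h2]
  nlinarith [Real.sq_sqrt hx, Real.sq_sqrt (show 0 ≤ x + 1 by linarith)]

theorem inv_pow_three_halves_step {x : ℝ} (hx : 0 < x) :
    ((x + 1) * √(x + 1))⁻¹ ≤ 2 * ((√x)⁻¹ - (√(x + 1))⁻¹) := by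
  have h1 : √x ≤ √(x + 1) := Real.sqrt_le_sqrt (by linarith)
  have h0 : 0 < √x := Real.sqrt_pos.2 hx
  have h2 : 0 < √(x + 1) := Real.sqrt_pos.2 (by linarith)
  refine le_trans ?_ (le_of_eq (show 2 * (√(x + 1) - √x) / (√x * √(x + 1)) = _ by field_simp))
  rw [le_div_iff₀ (by positivity), inv_mul_le_iff₀ (by positivity)]
  have h3 := inv_sqrt_step hx.le
  rw [inv_le_iff_one_le_mul₀ h2] at h3
  nlinarith [mul_le_mul_of_nonneg_left h3 (by positivity : 0 ≤ x + 1),
    mul_le_mul_of_nonneg_right h1 h2.le, Real.sq_sqrt (show 0 ≤ x + 1 by linarith)]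

theorem sum_waveBound_le (k : ℕ) (N : ℕ) :
    ∑ q ∈ Finset.range N, waveBound k q ≤ 5 * √(k : ℝ) := by
  have key : ∀ N : ℕ, ∑ q ∈ Finset.range (N + 2), waveBound k q ≤
      (if N + 1 ≤ k then 2 * √((N : ℝ) + 1) else 4 * √(k : ℝ) - 2 * k * (√((N : ℝ) + 1))⁻¹) +
        √(k : ℝ) * (1 - 1 / ((N : ℝ) + 1)) := fun N => by
    induction N with
    | zero =>
      simp [Finset.sum_range_succ, waveBound]
      split_ifs with h
      · norm_num
      · obtain rfl : k = 0 := by omega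
        simp
    | succ N ih =>
      rw [Finset.sum_range_succ, waveBound, if_neg (by omega)]
      push_cast
      rw [show (N : ℝ) + 2 = (N : ℝ) + 1 + 1 by ring]
      obtain ⟨x, hx⟩ : ∃ x : ℝ, x = (N : ℝ) + 1 := ⟨_, rfl⟩
      have hx1 : 1 ≤ x := by linarith [(Nat.cast_nonneg N : (0 : ℝ) ≤ N)]
      rw [← hx] at ih ⊢
      have e2 : √(k : ℝ) / ((x + 1) * (x + 1 - 1)) + √(k : ℝ) * (1 - 1 / x) =
          √(k : ℝ) * (1 - 1 / (x + 1)) := by
        have hx0 : x ≠ 0 := by linarith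
        rw [add_sub_cancel_right]
        field_simp
        ring
      have hs2 : 0 < √(x + 1) := Real.sqrt_pos.2 (by linarith)
      rcases Nat.lt_trichotomy (N + 1) k with h | h | h
      · rw [if_pos h.le] at ih
        rw [if_pos (by omega)]
        have h3 := inv_sqrt_step (show 0 ≤ x by linarith)
        have : min 1 ((k : ℝ) / (x + 1)) / √(x + 1) ≤ (√(x + 1))⁻¹ := by
          rw [← one_div]
          exact div_le_div_of_nonneg_right (min_le_left _ _) hs2.le
        linarith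
      · rw [if_pos h.le] at ih
        rw [if_neg (by omega)]
        have hkx : (k : ℝ) = x := by rw [hx, ← h]; push_cast; ring
        have h3 := inv_pow_three_halves_step (show 0 < x by linarith)
        have : min 1 ((k : ℝ) / (x + 1)) / √(x + 1) ≤ k * ((x + 1) * √(x + 1))⁻¹ := by
          rw [← div_eq_mul_inv, ← div_div]
          exact div_le_div_of_nonneg_right (min_le_right _ _) hs2.le
        have e3 : 2 * (k : ℝ) * (√x)⁻¹ = 2 * √x := by
          rw [hkx, mul_assoc, ← div_eq_mul_inv, Real.div_sqrt]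
        have e4 : √(k : ℝ) = √x := by rw [hkx]
        nlinarith [mul_le_mul_of_nonneg_left h3 (Nat.cast_nonneg (α := ℝ) k)]
      · rw [if_neg (by omega)] at ih
        rw [if_neg (by omega)]
        have h3 := inv_pow_three_halves_step (show 0 < x by linarith)
        have : min 1 ((k : ℝ) / (x + 1)) / √(x + 1) ≤ k * ((x + 1) * √(x + 1))⁻¹ := by
          rw [← div_eq_mul_inv, ← div_div]
          exact div_le_div_of_nonneg_right (min_le_right _ _) hs2.le
        nlinarith [mul_le_mul_of_nonneg_left h3 (Nat.cast_nonneg (α := ℝ) k)]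
  refine le_trans (Finset.sum_le_sum_of_subset_of_nonneg
    (Finset.range_mono (Nat.le_add_right N 2)) fun q _ _ => waveBound_nonneg k q)
    ((key N).trans ?_)
  have h1 : √(k : ℝ) * (1 - 1 / ((N : ℝ) + 1)) ≤ √(k : ℝ) :=
    mul_le_of_le_one_right (Real.sqrt_nonneg _) (sub_le_self _ (by positivity))
  split_ifs with h
  · have : √((N : ℝ) + 1) ≤ √(k : ℝ) := Real.sqrt_le_sqrt (by exact_mod_cast h)
    linarith [Real.sqrt_nonneg (k : ℝ)]
  · have : 0 ≤ 2 * (k : ℝ) * (√((N : ℝ) + 1))⁻¹ := by positivity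
    linarith

variable (K : Type u) [Field K] [NumberField K]

theorem abs_fiber_integral_le {σ : ℝ} (hσ : 1 / 2 < σ) (k q : ℕ) (A B : ℝ) :
    Continuous (fun x => altSum k fun j : ℕ => if j = 0 then 0 else weightRe (pt σ x + j) q) ∧
      |∫ x in A..B, altSum k fun j : ℕ => if j = 0 then 0 else weightRe (pt σ x + j) q| ≤
        2 * waveBound k q := by
  have hσ0 : 0 < σ := by linarith
  rcases Nat.lt_or_ge q 2 with hq | hq
  · have h0 : (fun x : ℝ => altSum k fun j : ℕ =>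
        if j = 0 then (0 : ℝ) else weightRe (pt σ x + j) q) = fun _ => 0 := funext fun x => by
      simp [altSum, weightRe_small hq]
    rw [h0]
    simp [waveBound, hq, continuous_const]
  have hq2 : (2 : ℝ) ≤ q := by exact_mod_cast hq
  obtain ⟨β, hβ⟩ : ∃ β : ℕ → ℝ, β = fun m =>
      Real.log q * ((q : ℝ) ^ (-σ)) ^ (m + 1) * (1 - (1 - ((q : ℝ)⁻¹) ^ (m + 1)) ^ k) := ⟨_, rfl⟩
  have hβs : Summable β := by
    have hr : (q : ℝ) ^ (-σ) < 1 :=
      Real.rpow_lt_one_of_one_lt_of_neg (by linarith) (by linarith)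
    have hr0 : 0 ≤ (q : ℝ) ^ (-σ) := Real.rpow_nonneg (by linarith) _
    refine (((summable_geometric_of_lt_one hr0 hr).mul_left
      (Real.log q * (q : ℝ) ^ (-σ)))).of_nonneg_of_le (fun m => ?_) fun m => ?_
    · rw [hβ]
      exact mul_nonneg (mul_nonneg (Real.log_natCast_nonneg q) (pow_nonneg hr0 _))
        (one_sub_pow_bounds k q m hq).1
    · rw [hβ]
      refine (mul_le_of_le_one_right (by positivity) (one_sub_pow_bounds k q m hq).2.1).trans_eq ?_
      ring
  have hb : ∀ m x, ‖primeWave σ k q m x‖ ≤ β m := fun m x => by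
    rw [hβ, Real.norm_eq_abs]
    exact abs_primeWave_le k hq m x
  have he : (fun x : ℝ => altSum k fun j : ℕ => if j = 0 then 0 else weightRe (pt σ x + j) q) =
      fun x => ∑' m, primeWave σ k q m x :=
    funext fun x => (hasSum_primeWave hσ0 k hq x).tsum_eq.symm
  refine ⟨he ▸ continuous_tsum (continuous_primeWave σ k q) hβs hb, ?_⟩
  have hs := intervalIntegral.hasSum_integral_of_dominated_convergence (μ := volume) (a := A)
    (b := B) (F := primeWave σ k q)
    (f := fun x => altSum k fun j : ℕ => if j = 0 then 0 else weightRe (pt σ x + j) q)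
    (fun m _ => β m) (fun m => (continuous_primeWave σ k q m).aestronglyMeasurable)
    (fun m => Eventually.of_forall fun x _ => hb m x)
    (Eventually.of_forall fun _ _ => hβs) intervalIntegrable_const
    (Eventually.of_forall fun x _ => hasSum_primeWave hσ0 k hq x)
  rw [← hs.tsum_eq, ← Real.norm_eq_abs]
  refine tsum_of_norm_bounded ?_ fun m => abs_integral_primeWave_le hσ k hq m A B
  rw [waveBound, if_neg (by omega)]
  refine HasSum.mul_left 2 ?_
  have hg := (hasSum_geometric_of_lt_one (r := (q : ℝ)⁻¹) (by positivity)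
    (inv_lt_one_of_one_lt₀ (by linarith))).mul_left (√(k : ℝ) * (q : ℝ)⁻¹)
  have h1 := (hasSum_ite_eq 0 (min 1 ((k : ℝ) / q) / √(q : ℝ) - √(k : ℝ) / q)).add hg
  rw [show min 1 ((k : ℝ) / q) / √(q : ℝ) - √(k : ℝ) / q +
      √(k : ℝ) * (q : ℝ)⁻¹ * (1 - (q : ℝ)⁻¹)⁻¹ =
      min 1 ((k : ℝ) / q) / √(q : ℝ) + √(k : ℝ) / ((q : ℝ) * ((q : ℝ) - 1)) by
    have : (q : ℝ) - 1 ≠ 0 := by linarith
    field_simp
    ring] at h1
  exact h1.congr_fun fun m => by rw [pow_succ']; ring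

/-- **The primes, integrated.** -/
theorem abs_integral_primeTerms_le {σ : ℝ} (hσ : 1 / 2 < σ) (k : ℕ) (A B : ℝ) :
    Continuous (fun x => altSum k (primeTerms K (pt σ x))) ∧
      |∫ x in A..B, altSum k (primeTerms K (pt σ x))| ≤ 10 * √(k : ℝ) * finrank ℚ K := by
  have hσ0 : 0 < σ := by linarith
  obtain ⟨F, hF⟩ : ∃ F : ℕ → ℝ → ℝ, F = fun q x => (placeCount K q : ℝ) *
      altSum k fun j : ℕ => if j = 0 then 0 else weightRe (pt σ x + j) q := ⟨_, rfl⟩
  obtain ⟨u, hu⟩ : ∃ u : ℕ → ℝ, u = fun q => ‖F q 0‖ := ⟨_, rfl⟩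
  have hh : ∀ x, HasSum (fun q => F q x) (altSum k (primeTerms K (pt σ x))) := fun x => by
    rw [hF]
    exact hasSum_primeTerms K hσ0 k
  have hus : Summable u := hu ▸ (hh 0).summable.norm
  have hb : ∀ q x, ‖F q x‖ ≤ u q := fun q x => by
    rw [hu, hF]
    dsimp only
    rw [norm_mul, norm_mul]
    refine mul_le_mul_of_nonneg_left ?_ (norm_nonneg _)
    rcases Nat.lt_or_ge q 2 with hq | hq
    · simp [altSum, weightRe_small hq]
    obtain ⟨β, hβ⟩ : ∃ β : ℕ → ℝ, β = fun m =>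
        Real.log q * ((q : ℝ) ^ (-σ)) ^ (m + 1) * (1 - (1 - ((q : ℝ)⁻¹) ^ (m + 1)) ^ k) := ⟨_, rfl⟩
    have h0 : HasSum β (-altSum k fun j : ℕ => if j = 0 then 0 else weightRe (pt σ 0 + j) q) :=
      (hasSum_primeWave hσ0 k hq 0).neg.congr_fun fun m => by
        simp [primeWave, hβ]
        ring
    rw [← (hasSum_primeWave hσ0 k hq x).tsum_eq]
    refine (tsum_of_norm_bounded h0 fun m => ?_).trans ((le_abs_self _).trans_eq (abs_neg _))
    rw [hβ]
    exact abs_primeWave_le k hq m x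
  have hc : ∀ q, Continuous (F q) := fun q => by
    rw [hF]
    exact (abs_fiber_integral_le hσ k q A B).1.const_mul _
  have he : (fun x : ℝ => altSum k (primeTerms K (pt σ x))) = fun x => ∑' q, F q x :=
    funext fun x => (hh x).tsum_eq.symm
  refine ⟨he ▸ continuous_tsum hc hus hb, ?_⟩
  have hs := intervalIntegral.hasSum_integral_of_dominated_convergence (μ := volume) (a := A)
    (b := B) (F := F) (f := fun x => altSum k (primeTerms K (pt σ x)))
    (fun q _ => u q) (fun q => (hc q).aestronglyMeasurable)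
    (fun q => Eventually.of_forall fun x _ => hb q x)
    (Eventually.of_forall fun _ _ => hus) intervalIntegrable_const
    (Eventually.of_forall fun x _ => hh x)
  obtain ⟨c, hc0⟩ : ∃ c : ℝ, c = 2 * (finrank ℚ K : ℝ) := ⟨_, rfl⟩
  have hws : Summable (waveBound k) :=
    summable_of_sum_range_le (waveBound_nonneg k) (sum_waveBound_le k)
  rw [← hs.tsum_eq, ← Real.norm_eq_abs]
  refine (tsum_of_norm_bounded (hws.hasSum.mul_left c) fun q => ?_).trans ?_
  · rw [hF, hc0]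
    dsimp only
    rw [intervalIntegral.integral_const_mul, norm_mul, Real.norm_of_nonneg (Nat.cast_nonneg _),
      mul_comm (2 : ℝ), mul_assoc, Real.norm_eq_abs]
    exact mul_le_mul (Nat.cast_le.2 (placeCount_le K q)) (abs_fiber_integral_le hσ k q A B).2
      (abs_nonneg _) (Nat.cast_nonneg _)
  · have h5 := Real.tsum_le_of_sum_range_le (waveBound_nonneg k) (sum_waveBound_le k)
    refine (mul_le_mul_of_nonneg_left h5 (by rw [hc0]; positivity)).trans_eq ?_
    rw [hc0]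
    ring

end FA.DedekindOrdinateGaps

end
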