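import Fermat.Agent.DedekindOrdinateGaps.Primes
import Fermat.Agent.PairCorr.Bounds

/-!
# `re ξ'/ξ` close to the critical line, up to the primes

For `a H_L ≥ 16` and `σ = 1/2 + a ≤ 3/4`, `re ξ'/ξ (σ + i x)` is
`g + n/2 log (|x| + 3)` plus the averaged primes, up to `14 n + 16 √L` and an eighth of itself.
-/

set_option autoImplicit false
set_option linter.style.haveILetI false

noncomputable section

universe u

open NumberField InfinitePlace Module Filter Topology Set MeasureTheory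
open FA.TsfasmanVladut FA.EulerKroneckerFamilies FA.GRHBasicInequality
open FA.FamilyZeroDensity FA.DedekindMultiplicity FA.DedekindHadamard
open scoped Real Classical

namespace FA.DedekindOrdinateGaps

theorem abs_rates_sub_log_le {s : ℂ} (h1 : 1 / 2 ≤ s.re) (h2 : s.re ≤ 1) :
    |-realRateAt s - Real.log (|s.im| + 3) / 2| ≤ 12 ∧
      |-complexRateAt s - Real.log (|s.im| + 3)| ≤ 24 := by
  have hb : ∀ z : ℂ, 1 / 4 ≤ z.re → z.re ≤ 4 →
      |(Complex.digamma z).re - Real.log (|z.im| + 2)| ≤ 20 := fun z hz hz' => by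
    have h := (Complex.abs_re_le_norm _).trans (FA.PairCorrelation.norm_digamma_sub_log_le hz hz')
    rwa [Complex.sub_re, Complex.ofReal_re, ← logDeriv_apply, ← Complex.digamma_def] at h
  have h2' : (s / 2).re = s.re / 2 := Complex.div_ofNat_re s 2
  have b1 := abs_le.1 (hb (s / 2) (by rw [h2']; linarith) (by rw [h2']; linarith))
  have b2 := abs_le.1 (hb s (by linarith) (by linarith))
  rw [Complex.div_ofNat_im, abs_div, abs_two] at b1
  have e0 : 0 ≤ |s.im| := abs_nonneg _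
  have l1 : Real.log (|s.im| / 2 + 2) ≤ Real.log (|s.im| + 3) :=
    Real.log_le_log (by positivity) (by linarith)
  have l1' : Real.log (|s.im| + 3) ≤ Real.log 2 + Real.log (|s.im| / 2 + 2) := by
    rw [← Real.log_mul two_ne_zero (by positivity)]
    exact Real.log_le_log (by positivity) (by linarith)
  have l2 : Real.log (|s.im| + 2) ≤ Real.log (|s.im| + 3) :=
    Real.log_le_log (by positivity) (by linarith)
  have l2' : Real.log (|s.im| + 3) ≤ Real.log 2 + Real.log (|s.im| + 2) := by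
    rw [← Real.log_mul two_ne_zero (by positivity)]
    exact Real.log_le_log (by positivity) (by linarith)
  have hl2 : Real.log 2 ≤ 1 := (Real.log_le_iff_le_exp two_pos).2 (by
    linarith [Real.add_one_le_exp 1])
  have hπ0 : 0 ≤ Real.log π := Real.log_nonneg (by linarith [Real.pi_gt_three])
  have hπ : Real.log (2 * π) ≤ 2 := by
    rw [Real.log_le_iff_le_exp (by positivity), show (2 : ℝ) = 1 + 1 by norm_num, Real.exp_add]
    nlinarith [Real.exp_one_gt_d9, Real.pi_lt_d2]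
  have hπ' : Real.log π ≤ Real.log (2 * π) :=
    Real.log_le_log Real.pi_pos (by linarith [Real.pi_pos])
  rw [realRateAt, complexRateAt, abs_le, abs_le]
  refine ⟨⟨?_, ?_⟩, ?_, ?_⟩ <;> linarith

variable (K : Type u) [Field K] [NumberField K]

/-- `g + n/2 log (|x| + 3)`. -/
def mainRate (x : ℝ) : ℝ := logGenus K + finrank ℚ K / 2 * Real.log (|x| + 3)

theorem continuous_mainRate : Continuous (mainRate K) :=
  continuous_const.add (continuous_const.mul
    ((continuous_abs.add continuous_const).log fun x =>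
      (add_pos_of_nonneg_of_pos (abs_nonneg x) three_pos).ne'))

/-- The primes in the averaged formula at `σ + i x`, divided by `H_L`. -/
def primeAvg (L : ℕ) (σ x : ℝ) : ℝ := avgAlt L (primeTerms K (pt σ x)) / (harmonic L : ℝ)

theorem continuous_primeAvg (L : ℕ) {σ : ℝ} (hσ : 1 / 2 < σ) :
    Continuous fun x => primeAvg K L σ x :=
  (continuous_finsetSum _ fun k _ =>
    (abs_integral_primeTerms_le K hσ k 0 0).1.const_mul _).div_const _

theorem abs_integral_primeAvg_le {L : ℕ} (hL : 0 < (harmonic L : ℝ)) {σ : ℝ} (hσ : 1 / 2 < σ)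
    (A B : ℝ) : |∫ x in A..B, primeAvg K L σ x| ≤ 10 * √(L : ℝ) * finrank ℚ K := by
  simp only [primeAvg, avgAlt]
  rw [intervalIntegral.integral_div, intervalIntegral.integral_finsetSum fun k _ =>
    ((abs_integral_primeTerms_le K hσ k A B).1.const_mul _).intervalIntegrable _ _, abs_div,
    abs_of_pos hL, div_le_iff₀ hL, harmonic_cast, Finset.mul_sum]
  refine (Finset.abs_sum_le_sum_abs _ _).trans (Finset.sum_le_sum fun k hk => ?_)
  rw [intervalIntegral.integral_const_mul, abs_mul,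
    abs_of_nonneg (inv_nonneg.2 (Nat.cast_nonneg k)), mul_comm]
  refine mul_le_mul_of_nonneg_right ((abs_integral_primeTerms_le K hσ k A B).2.trans ?_)
    (inv_nonneg.2 (Nat.cast_nonneg k))
  exact mul_le_mul_of_nonneg_right (mul_le_mul_of_nonneg_left
    (Real.sqrt_le_sqrt (Nat.cast_le.2 (Finset.mem_Icc.1 hk).2)) (by norm_num)) (Nat.cast_nonneg _)

theorem abs_avgAlt_archTerms_add_le {σ x : ℝ} (hσ : 1 / 2 < σ) (L : ℕ) :
    |avgAlt L (archTerms K (pt σ x)) + (harmonic L : ℝ) *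
      (nrRealPlaces K * realRateAt (pt σ x) + nrComplexPlaces K * complexRateAt (pt σ x))| ≤
      (harmonic L : ℝ) * (2 * finrank ℚ K) := by
  rw [avgAlt, harmonic_cast, Finset.sum_mul, Finset.sum_mul, ← Finset.sum_add_distrib]
  refine (Finset.abs_sum_le_sum_abs _ _).trans (Finset.sum_le_sum fun k hk => ?_)
  obtain ⟨m, rfl⟩ : ∃ m, k = m + 1 := ⟨k - 1, by have := (Finset.mem_Icc.1 hk).1; omega⟩
  rw [← mul_add, abs_mul, abs_of_nonneg (inv_nonneg.2 (Nat.cast_nonneg (m + 1)))]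
  refine mul_le_mul_of_nonneg_left ?_ (inv_nonneg.2 (Nat.cast_nonneg _))
  have hd := abs_altSum_rateAt_le m (show 0 < (pt σ x).re by rw [pt_re]; linarith)
  rw [pt_re] at hd
  have hf : fdRatio σ m ≤ 2 := (fdRatio_le_zero (by linarith) m).trans
    ((inv_anti₀ (by norm_num) hσ.le).trans_eq (by norm_num))
  rw [show altSum (m + 1) (archTerms K (pt σ x)) +
      (nrRealPlaces K * realRateAt (pt σ x) + nrComplexPlaces K * complexRateAt (pt σ x)) =
      nrRealPlaces K * (altSum (m + 1) fun j : ℕ => realRateAt (pt σ x + j)) +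
      nrComplexPlaces K * (altSum (m + 1) fun j : ℕ => complexRateAt (pt σ x + j)) by
    unfold archTerms
    rw [altSum_ite, altSum_add, altSum_mul_left, altSum_mul_left, Nat.cast_zero, add_zero]
    ring]
  refine (abs_add_le _ _).trans ?_
  rw [abs_mul, abs_mul, Nat.abs_cast, Nat.abs_cast, ← degree_split K]
  have r0 : (0 : ℝ) ≤ nrRealPlaces K := Nat.cast_nonneg _
  have c0 : (0 : ℝ) ≤ nrComplexPlaces K := Nat.cast_nonneg _
  linarith [mul_le_mul_of_nonneg_left (hd.1.trans hf) r0,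
    mul_le_mul_of_nonneg_left (hd.2.trans hf) c0]

/-- **The approximate formula.** -/
theorem abs_fieldLog_sub_main_le (hRH : RHFor K) {L : ℕ} {a : ℝ} (ha : 0 < a) (ha1 : a ≤ 1 / 4)
    (haH : 16 ≤ a * (harmonic L : ℝ)) (x : ℝ) :
    |fieldLog K (pt (1 / 2 + a) x) - mainRate K x - primeAvg K L (1 / 2 + a) x| ≤
      14 * finrank ℚ K + 16 * √(L : ℝ) + fieldLog K (pt (1 / 2 + a) x) / 8 := by
  obtain ⟨H, hH⟩ : ∃ H : ℝ, H = (harmonic L : ℝ) := ⟨_, rfl⟩
  rw [← hH] at haH
  have hH0 : 0 < H := pos_of_mul_pos_right (by linarith) ha.le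
  have hσ : 1 / 2 < 1 / 2 + a := by linarith
  have hF := abs_le.1 (abs_avgAlt_fieldLog_le K hRH L ha x)
  rw [avgAlt_fieldLog_eq K L (by linarith : 0 < 1 / 2 + a), ← hH] at hF
  have hf0 := fieldLog_nonneg K hRH hσ x
  have he : 2 / a * fieldLog K (pt (1 / 2 + a) x) ≤ H / 8 * fieldLog K (pt (1 / 2 + a) x) := by
    refine mul_le_mul_of_nonneg_right ?_ hf0
    rw [div_le_iff₀ ha]
    linarith
  have hP : |avgAlt L (poleTerms (pt (1 / 2 + a) x))| ≤ (harmonic L : ℝ) * (16 * √(L : ℝ)) :=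
    avgAlt_mono_abs fun k hk =>
      (abs_altSum_poleTerms_le hσ (by linarith) (Finset.mem_Icc.1 hk).1).trans
        (mul_le_mul_of_nonneg_left (Real.sqrt_le_sqrt (Nat.cast_le.2 (Finset.mem_Icc.1 hk).2))
          (by norm_num))
  have hA := abs_le.1 (abs_avgAlt_archTerms_add_le K (x := x) hσ L)
  obtain ⟨h1, h2⟩ := abs_rates_sub_log_le (s := pt (1 / 2 + a) x) (by rw [pt_re]; linarith)
    (by rw [pt_re]; linarith)
  rw [pt_im, abs_le] at h1 h2
  have r0 : (0 : ℝ) ≤ H * nrRealPlaces K := mul_nonneg hH0.le (Nat.cast_nonneg _)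
  have c0 : (0 : ℝ) ≤ H * nrComplexPlaces K := mul_nonneg hH0.le (Nat.cast_nonneg _)
  have u1 := mul_le_mul_of_nonneg_left h1.1 r0
  have u2 := mul_le_mul_of_nonneg_left h1.2 r0
  have v1 := mul_le_mul_of_nonneg_left h2.1 c0
  have v2 := mul_le_mul_of_nonneg_left h2.2 c0
  rw [abs_le] at hP
  rw [← hH] at hA hP
  have hR : H * primeAvg K L (1 / 2 + a) x = avgAlt L (primeTerms K (pt (1 / 2 + a) x)) := by
    rw [primeAvg, ← hH, mul_div_cancel₀ _ hH0.ne']
  rw [mainRate, abs_le]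
  rw [← degree_split K] at hA ⊢
  constructor <;> refine le_of_mul_le_mul_left ?_ hH0 <;>
    linarith [hF.1, hF.2, hA.1, hA.2, hP.1, hP.2]

/-- **An upper bound for `a H_L ≥ 4`.** -/
theorem fieldLog_le_general (hRH : RHFor K) {L : ℕ} {a : ℝ} (ha : 0 < a) (ha1 : a ≤ 1 / 4)
    (haH : 4 ≤ a * (harmonic L : ℝ)) (x : ℝ) :
    fieldLog K (pt (1 / 2 + a) x) ≤
      4 * (logGenus K + 16 * √(L : ℝ) + 16 * Real.log (|x| + 3) * finrank ℚ K) := by
  obtain ⟨H, hH⟩ : ∃ H : ℝ, H = (harmonic L : ℝ) := ⟨_, rfl⟩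
  rw [← hH] at haH
  have hH0 : 0 < H := pos_of_mul_pos_right (by linarith) ha.le
  have hσ : 1 / 2 < 1 / 2 + a := by linarith
  have hσ1 : 1 / 2 + a ≤ 3 / 4 := by linarith
  have he : ∀ y : ℝ, 2 / a * fieldLog K (pt (1 / 2 + a) y) ≤
      H / 2 * fieldLog K (pt (1 / 2 + a) y) := fun y => by
    refine mul_le_mul_of_nonneg_right ?_ (fieldLog_nonneg K hRH hσ y)
    rw [div_le_iff₀ ha]
    linarith
  have hx := (le_abs_self _).trans ((abs_avgAlt_fieldLog_le K hRH L ha x).trans (he x))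
  have h0 := (le_abs_self _).trans ((abs_avgAlt_fieldLog_le K hRH L ha 0).trans (he 0))
  rw [avgAlt_fieldLog_eq K L (by linarith : 0 < 1 / 2 + a), ← hH] at hx h0
  have r0 := abs_le.1 (abs_avgAlt_rest_le K (x := 0) hσ hσ1 L)
  have rx := abs_le.1 (abs_avgAlt_rest_le K (x := x) hσ hσ1 L)
  rw [← hH] at r0 rx
  have hv := abs_le.1 (abs_avgAlt_primeTerms_le K (x := x) hσ L)
  have hlog : Real.log (|(0 : ℝ)| + 3) * finrank ℚ K ≤ Real.log (|x| + 3) * finrank ℚ K :=
    mul_le_mul_of_nonneg_right (Real.log_le_log (by norm_num) (by simp)) (Nat.cast_nonneg _)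
  have hH' := mul_le_mul_of_nonneg_left hlog hH0.le
  have hf := mul_nonneg hH0.le (fieldLog_nonneg K hRH hσ 0)
  refine le_of_mul_le_mul_left ?_ hH0
  linear_combination 2 * hx + 2 * hv.2 + 2 * h0 + 2 * rx.1 + 2 * r0.1 + 32 * hH' + hf

end FA.DedekindOrdinateGaps

end
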